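import Mathlib
import Fermat.Agent.Gateway.Theta.HeckeCore
import Fermat.Agent.S48x.G1.Hecke.Coh1

/-!
# P-S48, G1: analytic core of the HK3 clone for `±Γ₁(M)` (helper4)

For `h : MerFun` the *Hecke product* `heckeProd1 t h = ∏_x h ∘ rep1 t x` (`x ∈ ℙ¹(𝔽_p)`).
If `h (γ z) = χ γ * h z` for all `γ ∈ ±Γ₁(M)`, then `heckeProd1 t h` transforms by the character
`γ ↦ ∏_x χ (coc1 x γ)` (the multiplicative twin of `heckeHom1`), and `h ∘ τ` (`τ ∈ Γ₀(M)`)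
transforms by `γ ↦ χ (τ γ τ⁻¹)` (the twin of `diamHom τ`).
-/

set_option autoImplicit false
set_option linter.unusedSectionVars false

open UpperHalfPlane CongruenceSubgroup Matrix.SpecialLinearGroup
open scoped MatrixGroups
open P2MW.S_ModularForm_heckeT_slash_eq_self_of_mem_Gamma0.ModularForm.HeckeSlashInvariance

namespace Fermat.Agent.S48x.G1

open Fermat.Agent.S24 Fermat.Agent.S24.MerFun Fermat.Agent.Gateway.Root
open Fermat.Agent.Gateway.HeckeCoh Fermat.Agent.Gateway.ThetaHecke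
open Fermat.Agent.S48x.Nebentypus (sRep)

variable {M p : ℕ} [NeZero M] [Fact p.Prime] (hpM : ¬ p ∣ M) (t : Twist M p)

/-- `rep1 t x` as an element of `GL(2,ℝ)⁺`. -/
noncomputable def rep1Pos (x : OnePoint (ZMod p)) : GL(2, ℝ)⁺ :=
  HolFun.slToGLPos (sRep p t.σ x) * heckeRepPos p x

@[simp] theorem coe_rep1Pos (x : OnePoint (ZMod p)) :
    ((rep1Pos t x : GL(2, ℝ)⁺) : GL (Fin 2) ℝ) = rep1 t x := rfl

/-- The cocycle relation in `GL(2,ℝ)⁺`. -/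
theorem rep1Pos_mul (x : OnePoint (ZMod p)) (γ : Gamma1pm M) :
    rep1Pos t x * HolFun.slToGLPos (γ : SL(2, ℤ)) =
      HolFun.slToGLPos (coc1 hpM t x γ : SL(2, ℤ)) *
        rep1Pos t (redMatrix p (γ : SL(2, ℤ)) • x) := by
  apply Subtype.ext
  exact coc1_spec hpM t x γ

/-! ### The Hecke product -/

/-- `heckeProd1 t h = ∏_x h ∘ rep1 t x`. -/
noncomputable def heckeProd1 (h : MerFun) : MerFun :=
  ∏ x : OnePoint (ZMod p), (rep1Pos t x)⁻¹ • h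

theorem heckeProd1_def (h : MerFun) :
    heckeProd1 t h = ∏ x : OnePoint (ZMod p), (rep1Pos t x)⁻¹ • h := rfl

theorem heckeProd1_one : heckeProd1 t 1 = 1 := by
  simp [heckeProd1]

theorem heckeProd1_mul (h₁ h₂ : MerFun) :
    heckeProd1 t (h₁ * h₂) = heckeProd1 t h₁ * heckeProd1 t h₂ := by
  simp only [heckeProd1, smul_mul', Finset.prod_mul_distrib]

theorem heckeProd1_pow (h : MerFun) (n : ℕ) : heckeProd1 t (h ^ n) = heckeProd1 t h ^ n := by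
  simp only [heckeProd1, smul_pow', Finset.prod_pow]

theorem heckeProd1_inv (h : MerFun) : heckeProd1 t h⁻¹ = (heckeProd1 t h)⁻¹ := by
  simp only [heckeProd1, smul_inv'', Finset.prod_inv_distrib]

theorem heckeProd1_cst (c : ℂ) :
    heckeProd1 t (cst c) = cst (c ^ (p + 1)) := by
  simp only [heckeProd1, gl_smul_cst, Finset.prod_const, Finset.card_univ, cst_pow]
  congr 1
  have : NeZero p := ⟨(Fact.out : p.Prime).ne_zero⟩
  rw [show Fintype.card (OnePoint (ZMod p)) = Fintype.card (Option (ZMod p)) from rfl,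
    Fintype.card_option, ZMod.card]

theorem heckeProd1_ne_zero {h : MerFun} (hh : h ≠ 0) : heckeProd1 t h ≠ 0 := by
  rw [heckeProd1, Finset.prod_ne_zero_iff]
  intro x _
  exact (smul_ne_zero_iff_ne _).mpr hh

/-- **HK3 core for `±Γ₁(M)`.**  If `h (γ z) = χ γ * h z` for all `γ ∈ ±Γ₁(M)`, then
`(heckeProd1 t h) (γ z) = (∏_x χ (coc1 x γ)) * (heckeProd1 t h) z`. -/
theorem inv_smul_heckeProd1 {h : MerFun} {χ : Gamma1pm M → ℂ}
    (hχ : ∀ γ : Gamma1pm M, (γ : SL(2, ℤ))⁻¹ • h = cst (χ γ) * h) (γ : Gamma1pm M) :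
    (γ : SL(2, ℤ))⁻¹ • heckeProd1 t h =
      cst (∏ x : OnePoint (ZMod p), χ (coc1 hpM t x γ)) * heckeProd1 t h := by
  have key : ∀ x : OnePoint (ZMod p),
      (γ : SL(2, ℤ))⁻¹ • ((rep1Pos t x)⁻¹ • h) =
        cst (χ (coc1 hpM t x γ)) *
          ((rep1Pos t (redMatrix p (γ : SL(2, ℤ)) • x))⁻¹ • h) := by
    intro x
    rw [sl_smul_eq, map_inv, ← mul_smul, ← mul_inv_rev, rep1Pos_mul hpM t x γ,
      mul_inv_rev, mul_smul, ← map_inv, ← sl_smul_eq, hχ, smul_mul', gl_smul_cst]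
  rw [heckeProd1, Finset.smul_prod']
  simp only [key]
  rw [Finset.prod_mul_distrib]
  have hc : (∏ x : OnePoint (ZMod p), cst (χ (coc1 hpM t x γ))) =
      cst (∏ x : OnePoint (ZMod p), χ (coc1 hpM t x γ)) := (map_prod cstHom _ _).symm
  rw [hc]
  congr 1
  exact Equiv.prod_comp (MulAction.toPerm (redMatrix p (γ : SL(2, ℤ))))
    (fun x => (rep1Pos t x)⁻¹ • h)

/-- **Diamond twin.**  If `h (γ z) = χ γ * h z` for all `γ ∈ ±Γ₁(M)` and `τ ∈ Γ₀(M)`, then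
`h ∘ τ` transforms by `γ ↦ χ (τ γ τ⁻¹)`. -/
theorem inv_smul_diam {h : MerFun} {χ : Gamma1pm M → ℂ}
    (hχ : ∀ γ : Gamma1pm M, (γ : SL(2, ℤ))⁻¹ • h = cst (χ γ) * h) (τ : Gamma0 M)
    (γ : Gamma1pm M) :
    (γ : SL(2, ℤ))⁻¹ • ((τ : SL(2, ℤ))⁻¹ • h) =
      cst (χ (conjBy τ γ)) * ((τ : SL(2, ℤ))⁻¹ • h) := by
  have h1 : (γ : SL(2, ℤ))⁻¹ * (τ : SL(2, ℤ))⁻¹ =
      (τ : SL(2, ℤ))⁻¹ * ((conjBy τ γ : Gamma1pm M) : SL(2, ℤ))⁻¹ := by
    rw [conjBy_coe]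
    group
  rw [← mul_smul, h1, mul_smul, hχ, smul_mul', sl_smul_cst]

end Fermat.Agent.S48x.G1
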